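/-
Row S41, block HK (helper263): the Fricke automorphism of `Γ₀(N)`,
`[[a, b], [c, d]] ↦ [[d, -c / N], [-N b, a]]` (conjugation by `[[0, -1], [N, 0]]`).
-/
import Mathlib

set_option autoImplicit false

namespace Fermat.Agent.S41.H263

open CongruenceSubgroup Matrix.SpecialLinearGroup
open scoped MatrixGroups

theorem dvd_lowerLeft {N : ℕ} (γ : Gamma0 N) : (N : ℤ) ∣ (γ : SL(2, ℤ)) 1 0 :=
  (ZMod.intCast_zmod_eq_zero_iff_dvd _ _).mp (Gamma0_mem.mp γ.2)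

theorem mem_Gamma0_of_dvd_lowerLeft {N : ℕ} {g : SL(2, ℤ)} (h : (N : ℤ) ∣ g 1 0) :
    g ∈ Gamma0 N :=
  Gamma0_mem.mpr ((ZMod.intCast_zmod_eq_zero_iff_dvd _ _).mpr h)

/-- The matrix `[[d, -c / N], [-N b, a]]`. -/
def frickeMat (N : ℕ) (γ : SL(2, ℤ)) : Matrix (Fin 2) (Fin 2) ℤ :=
  !![γ 1 1, -(γ 1 0 / N); -(N * γ 0 1), γ 0 0]

theorem det_frickeMat {N : ℕ} {γ : SL(2, ℤ)} (h : (N : ℤ) ∣ γ 1 0) :
    (frickeMat N γ).det = 1 := by
  have hdet := γ.det_coe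
  rw [Matrix.det_fin_two] at hdet
  rw [frickeMat, Matrix.det_fin_two_of]
  have : (γ 1 0 / (N : ℤ)) * N = γ 1 0 := Int.ediv_mul_cancel h
  linear_combination hdet - γ 0 1 * this

theorem frickeMat_one (N : ℕ) : frickeMat N 1 = 1 := by
  ext i j
  fin_cases i <;> fin_cases j <;> simp [frickeMat]

theorem frickeMat_mul {N : ℕ} (hN : N ≠ 0) {γ γ' : SL(2, ℤ)} (h : (N : ℤ) ∣ γ 1 0)
    (h' : (N : ℤ) ∣ γ' 1 0) :
    frickeMat N (γ * γ') = frickeMat N γ * frickeMat N γ' := by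
  obtain ⟨k, hk⟩ := h
  obtain ⟨k', hk'⟩ := h'
  have hN' : (N : ℤ) ≠ 0 := by exact_mod_cast hN
  have e00 : (γ * γ') 0 0 = γ 0 0 * γ' 0 0 + γ 0 1 * γ' 1 0 := by
    simp [Matrix.mul_apply, Fin.sum_univ_two]
  have e01 : (γ * γ') 0 1 = γ 0 0 * γ' 0 1 + γ 0 1 * γ' 1 1 := by
    simp [Matrix.mul_apply, Fin.sum_univ_two]
  have e10 : (γ * γ') 1 0 = γ 1 0 * γ' 0 0 + γ 1 1 * γ' 1 0 := by
    simp [Matrix.mul_apply, Fin.sum_univ_two]
  have e11 : (γ * γ') 1 1 = γ 1 0 * γ' 0 1 + γ 1 1 * γ' 1 1 := by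
    simp [Matrix.mul_apply, Fin.sum_univ_two]
  have hd : ((N : ℤ) * k * γ' 0 0 + γ 1 1 * (N * k')) / N = k * γ' 0 0 + γ 1 1 * k' := by
    rw [show (N : ℤ) * k * γ' 0 0 + γ 1 1 * (N * k') = N * (k * γ' 0 0 + γ 1 1 * k') by ring,
      Int.mul_ediv_cancel_left _ hN']
  ext i j
  fin_cases i <;> fin_cases j <;>
    simp [frickeMat, Matrix.mul_apply, Fin.sum_univ_two, e00, e01, e10, e11, hk, hk',
      Int.mul_ediv_cancel_left _ hN', hd] <;> ring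

/-- The Fricke automorphism of `Γ₀(N)` as a monoid homomorphism. -/
def frickeHom (N : ℕ) (hN : N ≠ 0) : Gamma0 N →* Gamma0 N where
  toFun γ := ⟨⟨frickeMat N γ, det_frickeMat (dvd_lowerLeft γ)⟩,
    mem_Gamma0_of_dvd_lowerLeft (by
      show (N : ℤ) ∣ frickeMat N γ 1 0
      simp [frickeMat])⟩
  map_one' := by
    apply Subtype.ext
    apply Subtype.ext
    exact frickeMat_one N
  map_mul' γ γ' := by
    apply Subtype.ext
    apply Subtype.ext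
    exact frickeMat_mul hN (dvd_lowerLeft γ) (dvd_lowerLeft γ')

theorem frickeHom_apply_coe (N : ℕ) (hN : N ≠ 0) (γ : Gamma0 N) :
    ((frickeHom N hN γ : SL(2, ℤ)) : Matrix (Fin 2) (Fin 2) ℤ) = frickeMat N γ := rfl

theorem frickeHom_frickeHom (N : ℕ) (hN : N ≠ 0) (γ : Gamma0 N) :
    frickeHom N hN (frickeHom N hN γ) = γ := by
  have hN' : (N : ℤ) ≠ 0 := by exact_mod_cast hN
  obtain ⟨k, hk⟩ := dvd_lowerLeft γ
  have h1 : ∀ x : ℤ, -((N : ℤ) * x) / N = -x := fun x ↦ by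
    rw [← mul_neg, Int.mul_ediv_cancel_left _ hN']
  apply Subtype.ext
  apply Subtype.ext
  rw [frickeHom_apply_coe]
  ext i j
  fin_cases i <;> fin_cases j <;>
    simp [frickeMat, frickeHom_apply_coe, hk, Int.mul_ediv_cancel_left _ hN', h1]

/-- The Fricke automorphism of `Γ₀(N)`. -/
def frickeEquiv (N : ℕ) (hN : N ≠ 0) : Gamma0 N ≃* Gamma0 N where
  toFun := frickeHom N hN
  invFun := frickeHom N hN
  left_inv := frickeHom_frickeHom N hN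
  right_inv := frickeHom_frickeHom N hN
  map_mul' := (frickeHom N hN).map_mul

theorem frickeEquiv_apply (N : ℕ) (hN : N ≠ 0) (γ : Gamma0 N) :
    frickeEquiv N hN γ = frickeHom N hN γ := rfl

end Fermat.Agent.S41.H263
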