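/-
Row S41, block HK (helper263): the transfer of a restricted homomorphism.

`transfer (Φ|_H) = Φ ^ [G : H]` for `Φ : G →* A`, `A` commutative, `H ≤ G` of finite index.
-/
import Mathlib

set_option autoImplicit false

namespace Fermat.Agent.S41.H263

open Subgroup MulAction

/-- The transfer of the restriction to `H` of a homomorphism `Φ : G →* A` (into a commutative
group) is `Φ ^ [G : H]`. -/
theorem transfer_comp_subtype {G A : Type*} [Group G] [CommGroup A] (H : Subgroup G)
    [H.FiniteIndex] (Φ : G →* A) (g : G) :
    MonoidHom.transfer (Φ.comp H.subtype) g = Φ g ^ H.index := by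
  classical
  letI := H.fintypeQuotientOfFiniteIndex
  rw [MonoidHom.transfer_eq_prod_quotient_orbitRel_zpowers_quot]
  have h : ∀ q : Quotient (orbitRel (zpowers g) (G ⧸ H)),
      (Φ.comp H.subtype)
        ⟨q.out.out⁻¹ * g ^ Function.minimalPeriod (g • ·) q.out * q.out.out,
          QuotientGroup.out_conj_pow_minimalPeriod_mem H g q.out⟩
        = Φ g ^ Function.minimalPeriod (g • ·) q.out := by
    intro q
    simp only [MonoidHom.comp_apply, Subgroup.subtype_apply, map_mul, map_inv, map_pow]
    rw [mul_comm, ← mul_assoc, mul_inv_cancel, one_mul]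
  simp_rw [h]
  rw [Finset.prod_pow_eq_pow_sum, ← index_eq_sum_minimalPeriod H g]

end Fermat.Agent.S41.H263
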