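/-
Row S41, block HK (helper263): leaf **TR**, `t₁ r₁ = q + 1 = t₂ r₂`
(`Fermat.Agent.S41.Spec.TransferRestrictStatement`).

* `transferAlong_comp` : for an injective `f : H →* G` with range of finite index,
  `transferAlong f (φ ∘ f) = [G : f(H)] • φ`;
* `[Γ₀(N) : Γ₀(N q)] = q + 1` (S20, on main);
* `[Γ₀(N) : c_δ(Γ₀(N q))] = q + 1`: the Fricke automorphism of `Γ₀(N)` carries `c_δ(Γ₀(N q))`
  onto `Γ₀(N q)` (`frickeHom N ∘ conjDelta = incl ∘ frickeHom (N q)`).
-/
import Mathlib
import Fermat.Agent.S41.Spec.HK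
import Fermat.Agent.S20.Comb.RelIndex
import Fermat.Agent.S41.H263.TransferGen
import Fermat.Agent.S41.H263.Fricke

set_option autoImplicit false

namespace Fermat.Agent.S41.H263

open CongruenceSubgroup Matrix.SpecialLinearGroup
open Fermat.Agent.S41.Spec
open scoped MatrixGroups

/-- The transfer along an injective `f` of `φ ∘ f` is `[G : f(H)] • φ`. -/
theorem transferAlong_comp {H G A : Type*} [Group H] [Group G] [AddCommGroup A] (f : H →* G)
    (hinj : Function.Injective f) (hfi : f.range.FiniteIndex) (φ : Additive G →+ A) :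
    transferAlong f (φ.comp (MonoidHom.toAdditive f)) = f.range.index • φ := by
  unfold transferAlong
  rw [dif_pos ⟨hinj, hfi⟩]
  have key : ((AddMonoidHom.toMultiplicativeRight (φ.comp (MonoidHom.toAdditive f))).comp
        (MonoidHom.ofInjective hinj).symm.toMonoidHom)
      = (AddMonoidHom.toMultiplicativeRight φ).comp f.range.subtype := by
    ext x
    simp only [MonoidHom.comp_apply, MulEquiv.coe_toMonoidHom, Subgroup.subtype_apply]
    have hx : f ((MonoidHom.ofInjective hinj).symm x) = x :=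
      MonoidHom.apply_ofInjective_symm hinj x
    show Multiplicative.ofAdd (φ (Additive.ofMul (f ((MonoidHom.ofInjective hinj).symm x))))
      = Multiplicative.ofAdd (φ (Additive.ofMul (x : G)))
    rw [hx]
  rw [key]
  ext g
  show Multiplicative.toAdd (MonoidHom.transfer
      ((AddMonoidHom.toMultiplicativeRight φ).comp f.range.subtype) (Additive.toMul g)) = _
  rw [transfer_comp_subtype]
  rfl

theorem incl_injective (N q : ℕ) : Function.Injective (incl N q) :=
  Subgroup.inclusion_injective _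

theorem range_incl (N q : ℕ) : (incl N q).range = (Gamma0 (N * q)).subgroupOf (Gamma0 N) :=
  Subgroup.inclusion_range _

theorem index_range_incl {N q : ℕ} (hN : N ≠ 0) (hq : q.Prime) (hqN : ¬ q ∣ N) :
    (incl N q).range.index = q + 1 := by
  rw [range_incl, ← Subgroup.relIndex, mul_comm]
  exact Fermat.Agent.S20.Comb.relIndex_Gamma0_of_not_dvd q N hN hq hqN

theorem conjDelta_injective (N : ℕ) {q : ℕ} (hq : q ≠ 0) : Function.Injective (conjDelta N q) := by
  intro γ γ' h
  have hq' : (q : ℤ) ≠ 0 := by exact_mod_cast hq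
  have hm : conjDeltaMatrix q γ = conjDeltaMatrix q γ' :=
    congrArg (fun x : Gamma0 N => ((x : SL(2, ℤ)) : Matrix (Fin 2) (Fin 2) ℤ)) h
  obtain ⟨k, hk⟩ := (dvd_of_mem_gamma0_mul γ).1
  obtain ⟨k', hk'⟩ := (dvd_of_mem_gamma0_mul γ').1
  have h00 := congrFun (congrFun hm 0) 0
  have h01 := congrFun (congrFun hm 0) 1
  have h10 := congrFun (congrFun hm 1) 0
  have h11 := congrFun (congrFun hm 1) 1
  simp only [conjDeltaMatrix, Matrix.of_apply, Matrix.cons_val_zero, Matrix.cons_val_one,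
    Matrix.cons_val', Matrix.empty_val', Matrix.cons_val_fin_one] at h00 h01 h10 h11
  rw [hk, hk', Int.mul_ediv_cancel_left _ hq', Int.mul_ediv_cancel_left _ hq'] at h10
  apply Subtype.ext
  apply Subtype.ext
  ext i j
  fin_cases i <;> fin_cases j
  · exact h00
  · exact mul_left_cancel₀ hq' h01
  · show (γ : SL(2, ℤ)) 1 0 = (γ' : SL(2, ℤ)) 1 0
    rw [hk, hk', h10]
  · exact h11

/-- `frickeHom N ∘ c_δ = incl ∘ frickeHom (N q)`. -/
theorem frickeHom_conjDelta {N q : ℕ} (hN : N ≠ 0) (hq : q ≠ 0) (γ : Gamma0 (N * q)) :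
    frickeHom N hN (conjDelta N q γ) = incl N q (frickeHom (N * q) (Nat.mul_ne_zero hN hq) γ) := by
  have hN' : (N : ℤ) ≠ 0 := by exact_mod_cast hN
  have hq' : (q : ℤ) ≠ 0 := by exact_mod_cast hq
  obtain ⟨k, hk⟩ := dvd_lowerLeft γ
  apply Subtype.ext
  apply Subtype.ext
  show frickeMat N (conjDelta N q γ : SL(2, ℤ)) = frickeMat (N * q) (γ : SL(2, ℤ))
  have e00 : ((conjDelta N q γ : Gamma0 N) : SL(2, ℤ)) 0 0 = (γ : SL(2, ℤ)) 0 0 := rfl
  have e01 : ((conjDelta N q γ : Gamma0 N) : SL(2, ℤ)) 0 1 = q * (γ : SL(2, ℤ)) 0 1 := rfl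
  have e10 : ((conjDelta N q γ : Gamma0 N) : SL(2, ℤ)) 1 0 = (γ : SL(2, ℤ)) 1 0 / q := rfl
  have e11 : ((conjDelta N q γ : Gamma0 N) : SL(2, ℤ)) 1 1 = (γ : SL(2, ℤ)) 1 1 := rfl
  have hk1 : (γ : SL(2, ℤ)) 1 0 / q = N * k := by
    rw [hk]
    push_cast
    rw [show (N : ℤ) * q * k = q * (N * k) by ring, Int.mul_ediv_cancel_left _ hq']
  have hk2 : (γ : SL(2, ℤ)) 1 0 / ((N * q : ℕ) : ℤ) = k := by
    rw [hk, Int.mul_ediv_cancel_left _ (by exact_mod_cast Nat.mul_ne_zero hN hq)]
  ext i j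
  fin_cases i <;> fin_cases j <;>
    simp only [frickeMat, e00, e01, e10, e11, hk1, hk2, Int.mul_ediv_cancel_left _ hN',
      Matrix.of_apply, Matrix.cons_val_zero, Matrix.cons_val_one, Matrix.cons_val',
      Matrix.empty_val', Matrix.cons_val_fin_one, Fin.zero_eta, Fin.mk_one] <;>
    push_cast <;> ring

theorem map_frickeEquiv_range_conjDelta {N q : ℕ} (hN : N ≠ 0) (hq : q ≠ 0) :
    (conjDelta N q).range.map (frickeEquiv N hN : Gamma0 N →* Gamma0 N) = (incl N q).range := by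
  ext x
  constructor
  · rintro ⟨_, ⟨γ, rfl⟩, rfl⟩
    exact ⟨frickeHom (N * q) (Nat.mul_ne_zero hN hq) γ, (frickeHom_conjDelta hN hq γ).symm⟩
  · rintro ⟨γ, rfl⟩
    refine ⟨conjDelta N q (frickeHom (N * q) (Nat.mul_ne_zero hN hq) γ), ⟨_, rfl⟩, ?_⟩
    show frickeHom N hN (conjDelta N q (frickeHom (N * q) (Nat.mul_ne_zero hN hq) γ)) = _
    rw [frickeHom_conjDelta hN hq, frickeHom_frickeHom]

theorem index_range_conjDelta {N q : ℕ} (hN : N ≠ 0) (hq : q.Prime) (hqN : ¬ q ∣ N) :
    (conjDelta N q).range.index = q + 1 := by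
  rw [← Subgroup.index_map_equiv (conjDelta N q).range (frickeEquiv N hN),
    map_frickeEquiv_range_conjDelta hN hq.ne_zero, index_range_incl hN hq hqN]

universe u

/-- **TR** (block HK): `t₁ r₁ = q + 1 = t₂ r₂`. -/
theorem transferRestrict : TransferRestrictStatement.{u} := by
  intro N q hN hq hqN A _ φ
  have h1 : (incl N q).range.FiniteIndex :=
    ⟨by rw [index_range_incl hN hq hqN]; exact Nat.succ_ne_zero q⟩
  have h2 : (conjDelta N q).range.FiniteIndex :=
    ⟨by rw [index_range_conjDelta hN hq hqN]; exact Nat.succ_ne_zero q⟩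
  constructor
  · rw [t₁, r₁, transferAlong_comp (incl N q) (incl_injective N q) h1 φ,
      index_range_incl hN hq hqN]
  · rw [t₂, r₂, transferAlong_comp (conjDelta N q) (conjDelta_injective N hq.ne_zero) h2 φ,
      index_range_conjDelta hN hq hqN]

end Fermat.Agent.S41.H263
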